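import Mathlib

/-!
# Properties of a scheme with a difference map, charts and a surjection from a proper scheme

Smoothness from smooth charts, separatedness from a difference map detecting the diagonal, and
properness of the image of a proper scheme.
-/

noncomputable section

universe u

open CategoryTheory CategoryTheory.Limits AlgebraicGeometry

namespace Fermat.Agent.Pic.Props

variable {X Y S : Scheme.{u}} (f : X ⟶ S)

/-- Smoothness from smooth charts. -/
theorem smooth_of_charts {ι : Type u} {W : ι → Scheme.{u}} (e : ∀ i, W i ⟶ X)
    [∀ i, IsOpenImmersion (e i)] (hcov : ∀ x : X, ∃ i y, (e i) y = x)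
    (hs : ∀ i, Smooth (e i ≫ f)) : Smooth f := by
  let 𝒰 : X.OpenCover :=
    { I₀ := ι
      X := W
      f := e
      mem₀ := by
        rw [Scheme.presieve₀_mem_precoverage_iff]
        exact ⟨fun x => hcov x, inferInstance⟩ }
  rw [IsZariskiLocalAtSource.iff_of_openCover (P := @Smooth) 𝒰]
  exact hs

/-- A difference map detecting equality of two points makes the scheme separated. -/
theorem isSeparated_of_difference [Subsingleton S] (o : S ⟶ X) (ho : o ≫ f = 𝟙 S)
    (δ : pullback f f ⟶ X) (hδ : δ ≫ f = pullback.fst f f ≫ f)
    (hdiff : ∀ {T : Scheme.{u}} (a b : T ⟶ X) (h : a ≫ f = b ≫ f),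
      pullback.lift a b h ≫ δ = (a ≫ f) ≫ o ↔ a = b) : IsSeparated f := by
  have hoc : IsClosedImmersion o := isClosedImmersion_of_comp_eq_id f o ho
  have hP : IsPullback f (pullback.diagonal f) o δ := by
    refine ⟨⟨?_⟩, ⟨PullbackCone.IsLimit.mk _ (fun s => s.snd ≫ pullback.fst f f) (fun s => ?_)
      (fun s => ?_) fun s m _ h₂ => ?_⟩⟩
    · have h := (hdiff (𝟙 X) (𝟙 X) rfl).2 rfl
      simp only [Category.id_comp] at h
      exact h.symm
    all_goals
      have hc : s.fst ≫ o = s.snd ≫ δ := s.condition
      have hfst : s.fst = (s.snd ≫ pullback.fst f f) ≫ f := by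
        have := congrArg (· ≫ f) hc
        simp only [Category.assoc, ho, Category.comp_id, hδ] at this
        rw [this, Category.assoc]
    · exact hfst.symm
    · have hab : (s.snd ≫ pullback.fst f f) ≫ f = (s.snd ≫ pullback.snd f f) ≫ f := by
        rw [Category.assoc, Category.assoc, pullback.condition]
      have hl : pullback.lift (s.snd ≫ pullback.fst f f) (s.snd ≫ pullback.snd f f) hab = s.snd :=
        pullback.hom_ext (pullback.lift_fst _ _ _) (pullback.lift_snd _ _ _)
      have heq := (hdiff _ _ hab).1 (by rw [hl, ← hc, ← hfst])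
      refine pullback.hom_ext ?_ ?_
      · simp
      · simpa using heq
    · rw [← h₂]; simp
  exact ⟨MorphismProperty.of_isPullback hP.flip.flip hoc⟩

/-- The image of a proper scheme is proper once separated and locally of finite type. -/
theorem isProper_of_surjective [IsSeparated f] [LocallyOfFiniteType f] (π : Y ⟶ X) [Surjective π]
    [UniversallyClosed (π ≫ f)] : IsProper f := by
  have := UniversallyClosed.of_comp_surjective π f
  exact {}

end Fermat.Agent.Pic.Props
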