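import Mathlib.AlgebraicGeometry.AlgClosed.Basic
import Fermat.Agent.Pic.Power.Reduced

/-!
# Surjectivity and geometric integrality from the rational points

If every rational point lifts to an integral proper scheme mapping to it, a smooth scheme is
geometrically integral and the map is surjective.
-/

noncomputable section

universe u

open CategoryTheory CategoryTheory.Limits AlgebraicGeometry

namespace Fermat.Agent.Pic.Props

variable {k : Type u} [Field k] [IsAlgClosed k] {X Y : Scheme.{u}}
  (f : X ⟶ Spec (CommRingCat.of k)) [Smooth f] (π : Y ⟶ X)

/-- A morphism through which every rational point factors has dense image. -/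
theorem denseRange_of_points
    (hπ : ∀ g : Spec (CommRingCat.of k) ⟶ X, g ≫ f = 𝟙 _ →
      ∃ g' : Spec (CommRingCat.of k) ⟶ Y, g' ≫ π = g) : DenseRange π := by
  have : JacobsonSpace X := LocallyOfFiniteType.jacobsonSpace f
  rw [DenseRange, dense_iff_closure_eq, ← Set.univ_subset_iff,
    ← closure_closedPoints (X := X)]
  refine closure_mono fun x hx => ?_
  obtain ⟨g', hg'⟩ := hπ (pointOfClosedPoint f x hx) (pointOfClosedPoint_comp f x hx)
  exact ⟨g' (default : PrimeSpectrum k),
      (congrArg (fun q => q (default : PrimeSpectrum k)) hg').trans
    (pointOfClosedPoint_apply f x hx _)⟩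

/-- A smooth scheme whose rational points factor through an integral one is geometrically
integral. -/
theorem geometricallyIntegral_of_points [IsIntegral Y]
    (hπ : ∀ g : Spec (CommRingCat.of k) ⟶ X, g ≫ f = 𝟙 _ →
      ∃ g' : Spec (CommRingCat.of k) ⟶ Y, g' ≫ π = g) : GeometricallyIntegral f := by
  have := Power.isReduced_of_smooth f
  have : Nonempty X := ⟨π (genericPoint Y)⟩
  have : IrreducibleSpace X := by
    have h := ((IrreducibleSpace.isIrreducible_univ Y).image π π.continuous.continuousOn).closure
    rw [Set.image_univ, (denseRange_of_points f π hπ).closure_range] at h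
    exact { toNonempty := inferInstance, toPreirreducibleSpace := ⟨h.2⟩ }
  have := isIntegral_of_irreducibleSpace_of_isReduced X
  exact Power.geometricallyIntegral_of_isIntegral f

/-- A morphism from a proper scheme through which every rational point factors is surjective onto
a separated one. -/
theorem surjective_of_points [IsSeparated f] [UniversallyClosed (π ≫ f)]
    (hπ : ∀ g : Spec (CommRingCat.of k) ⟶ X, g ≫ f = 𝟙 _ →
      ∃ g' : Spec (CommRingCat.of k) ⟶ Y, g' ≫ π = g) : Surjective π := by
  have : UniversallyClosed π := UniversallyClosed.of_comp_of_isSeparated π f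
  refine ⟨Set.range_eq_univ.mp ?_⟩
  rw [← π.isClosedMap.isClosed_range.closure_eq]
  exact (denseRange_of_points f π hπ).closure_range

end Fermat.Agent.Pic.Props
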