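import Fermat.Agent.Pic.Bridge.Classify
import Fermat.Agent.Pic.Cech.Tensor
import Fermat.Agent.Pic.Props.Basic

/-!
# The difference map and separatedness

On a scheme representing degree zero the data `L_b^∨ ⊗ L_a` at pairs of affine points are natural;
when the square is connected they have degree zero, so they give a map vanishing exactly on the
diagonal.
-/

noncomputable section

universe u

open CategoryTheory CategoryTheory.Limits AlgebraicGeometry AlgebraicCurve TopologicalSpace
open AlgebraicGeometry.RelPicard NeronModelInfra GoodReductionJacobian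
open Fermat.Agent.Pic.Cech Fermat.Agent.Pic.Repr Fermat.Agent.Pic.Bridge

namespace Fermat.Agent.Pic

variable {k : Type u} [Field k] {T : Scheme.{u}} {t : T ⟶ Spec (CommRingCat.of k)}
  {C : Scheme.{u}} {c : C ⟶ Spec (CommRingCat.of k)} {D : RelativePic0Designation k c}

/-- The structure map of the square. -/
abbrev sqBase (D : RelativePic0Designation k c) :
    pullback D.toBase D.toBase ⟶ Spec (CommRingCat.of k) :=
  pullback.fst D.toBase D.toBase ≫ D.toBase

/-- The first projection of the square. -/
def sqFst (D : RelativePic0Designation k c) : SchemeHomOver (sqBase D) D.toBase :=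
  ⟨pullback.fst _ _, rfl⟩

/-- The second projection of the square. -/
def sqSnd (D : RelativePic0Designation k c) : SchemeHomOver (sqBase D) D.toBase :=
  ⟨pullback.snd _ _, pullback.condition.symm⟩

/-- A pair of points as a point of the square. -/
def sqPair (A B : SchemeHomOver t D.toBase) : SchemeHomOver t (sqBase D) :=
  ⟨pullback.lift A.1 B.1 (A.2.trans B.2.symm),
    (Category.assoc _ _ _).symm.trans
      ((congrArg (· ≫ D.toBase) (pullback.lift_fst _ _ _)).trans A.2)⟩

theorem sqFst_sqPair (A B : SchemeHomOver t D.toBase) : postComp (sqFst D) (sqPair A B) = A :=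
  Subtype.ext (pullback.lift_fst _ _ _)

theorem sqSnd_sqPair (A B : SchemeHomOver t D.toBase) : postComp (sqSnd D) (sqPair A B) = B :=
  Subtype.ext (pullback.lift_snd _ _ _)

theorem sqPair_comp {T' : Scheme.{u}} {t' : T' ⟶ Spec (CommRingCat.of k)}
    (A B : SchemeHomOver t D.toBase) (f : SchemeHomOver t' t) :
    postComp (sqPair A B) f = sqPair (postComp A f) (postComp B f) :=
  Subtype.ext <| pullback.hom_ext
    (((Category.assoc _ _ _).trans (congrArg (f.1 ≫ ·) (pullback.lift_fst _ _ _))).trans
      (pullback.lift_fst _ _ _).symm)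
    (((Category.assoc _ _ _).trans (congrArg (f.1 ≫ ·) (pullback.lift_snd _ _ _))).trans
      (pullback.lift_snd _ _ _).symm)

/-- The zero section over `T`. -/
def zeroPoint (D : RelativePic0Designation k c) (t : T ⟶ Spec (CommRingCat.of k)) :
    SchemeHomOver t D.toBase :=
  ⟨t ≫ D.zeroSection, by rw [Category.assoc, D.zeroSection_toBase, Category.comp_id]⟩

theorem zeroPoint_comp {T' : Scheme.{u}} {t' : T' ⟶ Spec (CommRingCat.of k)}
    (f : SchemeHomOver t' t) : postComp (zeroPoint D t) f = zeroPoint D t' :=
  Subtype.ext ((Category.assoc _ _ _).symm.trans (congrArg (· ≫ D.zeroSection) f.2))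

namespace Parameter

variable [IsAlgClosed k] [IsIntegral C] [IsProper c] [SmoothOfRelativeDimension 1 c]
variable (p : Parameter c) {ε : SchemeHomOver (𝟙 (Spec (CommRingCat.of k))) c}
  (h : RepresentsRelSubPic c ε (p.degZero ε) D) {R : Type u} [CommRing R] [Algebra k R]

/-- The zero section has the trivial datum. -/
theorem nonempty_pointDatum_zero :
    Nonempty ((p.pointDatum h (zeroPoint D (specMap k R))).toPre.Equiv (unitPre p.cover R)) := by
  let ψ : SchemeHomOver (specMap k R) (𝟙 (Spec (CommRingCat.of k))) :=
    ⟨specMap k R, Category.comp_id _⟩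
  let z : SchemeHomOver (𝟙 (Spec (CommRingCat.of k))) D.toBase :=
    ⟨D.zeroSection, D.zeroSection_toBase⟩
  have hz : zeroPoint D (specMap k R) = postComp z ψ := Subtype.ext rfl
  rw [hz]
  obtain ⟨e⟩ := h.zero
  exact ⟨(((p.charted R).nonempty_iso_iff _ (Scheme.Modules.isInvertible_unit _)).1
    ⟨(pullbackPostComp z ψ _).symm ≪≫ (Scheme.Modules.pullback _).mapIso e ≪≫
      Scheme.Modules.pullbackUnitIso _⟩).some.trans
    ((p.charted R).unitEquiv (isLineOn_top (Scheme.Modules.isInvertible_unit _))).symm⟩

/-- The datum `L_B^∨ ⊗ L_A` of a pair of affine points. -/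
def diffDatum (A B : SchemeHomOver (specMap k R) D.toBase) : Datum p.cover R :=
  (p.pointDatum h B).dual.tensor (p.pointDatum h A)

/-- The difference data are natural in the base ring. -/
theorem nonempty_baseChange_diffDatum {R' : Type u} [CommRing R'] [Algebra k R'] [Algebra R R']
    [IsScalarTower k R R'] (A B : SchemeHomOver (specMap k R) D.toBase) :
    Nonempty (BaseChange (p.diffDatum h A B).toPre
      (p.diffDatum h (postComp A (specOver R R')) (postComp B (specOver R R'))).toPre) :=
  ⟨((p.nonempty_baseChange_datumAt _ _ B).some.dual).tensor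
    (p.nonempty_baseChange_datumAt _ _ A).some⟩

/-- The datum of a diagonal pair is trivial. -/
theorem nonempty_diffDatum_self (A : SchemeHomOver (specMap k R) D.toBase) :
    Nonempty ((p.diffDatum h A A).toPre.Equiv (unitPre p.cover R)) :=
  ⟨Datum.tensorDual _⟩

/-- A difference map. -/
structure Difference where
  /-- the map -/
  hom : SchemeHomOver (sqBase D) D.toBase
  spec : ∀ (R : Type u) [CommRing R] [Algebra k R] (A B : SchemeHomOver (specMap k R) D.toBase),
    LocEquiv (p.pointDatum h (postComp hom (sqPair A B))) (p.diffDatum h A B)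

/-- The difference map exists when the square is connected. -/
theorem exists_difference [PreconnectedSpace ↥(pullback D.toBase D.toBase)] :
    Nonempty (p.Difference h) := by
  let L : ∀ (R : Type u) [CommRing R] [Algebra k R], SchemeHomOver (specMap k R) (sqBase D) →
      Datum p.cover R := fun R _ _ g =>
    p.diffDatum h (postComp (sqFst D) g) (postComp (sqSnd D) g)
  have hnat : ∀ (R R' : Type u) [CommRing R] [CommRing R'] [Algebra k R] [Algebra k R']
      [Algebra R R'] [IsScalarTower k R R'] (g : SchemeHomOver (specMap k R) (sqBase D)),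
      Nonempty (BaseChange (L R g).toPre (L R' (postComp g (specOver R R'))).toPre) :=
    fun R R' _ _ _ _ _ _ g => by
      simp only [L, postComp_assoc]
      exact p.nonempty_baseChange_diffDatum h _ _
  have hdeg : ∀ (K : Type u) [Field K] [Algebra k K] (g : SchemeHomOver (specMap k K) (sqBase D)),
      (L K g).toPre.chi = (unitPre p.cover k).chi := by
    obtain ⟨r, hr, hrf⟩ := exists_chi_fun_of_data L hnat
    let o : SchemeHomOver (specMap k k) (sqBase D) :=
      sqPair (zeroPoint D (specMap k k)) (zeroPoint D (specMap k k))
    intro K _ _ g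
    rw [hrf K g (default : PrimeSpectrum K),
      hr.apply_eq_of_preconnectedSpace _ (o.1 (default : PrimeSpectrum k)),
      ← hrf k o (default : PrimeSpectrum k)]
    simp only [L, o, sqFst_sqPair, sqSnd_sqPair]
    exact chi_eq_of_equiv (p.nonempty_diffDatum_self h _).some
  obtain ⟨g, hg, -⟩ := p.existsUnique_of_data h L hnat hdeg
  refine ⟨⟨g, fun R _ _ A B => ?_⟩⟩
  have := hg R (sqPair A B)
  simpa only [L, sqFst_sqPair, sqSnd_sqPair] using this

variable {h}

/-- The difference of two points vanishes iff they are equal. -/
theorem Difference.eq_zero_iff (δ : p.Difference h) (A B : SchemeHomOver t D.toBase) :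
    postComp δ.hom (sqPair A B) = zeroPoint D t ↔ A = B := by
  constructor
  · intro e
    refine p.eq_of_locEquiv_charts h A B fun R _ _ f _ x => ?_
    have hs := δ.spec R (postComp A f) (postComp B f)
    rw [← sqPair_comp, postComp_assoc, e, zeroPoint_comp] at hs
    obtain ⟨s, hx, ⟨es⟩⟩ := hs x
    refine ⟨s, hx, ?_⟩
    let LA := (p.pointDatum h (postComp A f)).baseChange (Localization.Away s)
    let LB := (p.pointDatum h (postComp B f)).baseChange (Localization.Away s)
    obtain ⟨e0⟩ := p.nonempty_pointDatum_zero h (R := R)
    let eu := ((unitPre p.cover R).toBaseChange (Localization.Away s)).uniqueEquiv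
      (unitBaseChange p.cover R (Localization.Away s))
    have hA : BaseChange (p.pointDatum h (postComp A f)).toPre LA.toPre := Pre.toBaseChange _ _
    have hB : BaseChange (p.pointDatum h (postComp B f)).toPre LB.toPre := Pre.toBaseChange _ _
    let et := ((p.diffDatum h (postComp A f) (postComp B f)).toPre.toBaseChange
      (Localization.Away s)).uniqueEquiv (hB.dual.tensor hA)
    have e1 : (LB.dual.tensor LA).toPre.Equiv (unitDatum p.cover (Localization.Away s)).toPre :=
      et.symm.trans (es.symm.trans ((e0.baseChange _).trans eu))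
    exact ⟨((Datum.tensorUnit LA).symm.trans ((LA.tensorComm _).trans
      ((Datum.tensorCongr ((LB.tensorComm LB.dual).trans (Datum.tensorDual LB)).symm
        (Pre.Equiv.refl (P := LA.toPre))).trans ((Datum.tensorAssoc LB LB.dual LA).trans
          ((Datum.tensorCongr (Pre.Equiv.refl (P := LB.toPre)) e1).trans (Datum.tensorUnit LB))))))⟩
  · rintro rfl
    refine p.eq_of_locEquiv_charts h _ _ fun R _ _ f _ x => ?_
    rw [← postComp_assoc, sqPair_comp, zeroPoint_comp]
    obtain ⟨s, hx, ⟨es⟩⟩ := δ.spec R (postComp A f) (postComp A f) x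
    exact ⟨s, hx, ⟨es.trans (((p.nonempty_diffDatum_self h _).some.trans
      (p.nonempty_pointDatum_zero h).some.symm).baseChange _)⟩⟩

variable (h)

include p h in
/-- A scheme representing degree zero with connected square is separated. -/
theorem isSeparated_of_represents [PreconnectedSpace ↥(pullback D.toBase D.toBase)] :
    IsSeparated D.toBase := by
  obtain ⟨δ⟩ := p.exists_difference h
  have : Subsingleton ↥(Spec (CommRingCat.of k)) := inferInstanceAs (Subsingleton (PrimeSpectrum k))
  refine Props.isSeparated_of_difference D.toBase D.zeroSection D.zeroSection_toBase δ.hom.1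
    δ.hom.2 fun {T} a b hab => ?_
  have := δ.eq_zero_iff p (t := a ≫ D.toBase) ⟨a, rfl⟩ ⟨b, hab.symm⟩
  constructor
  · intro e
    exact congrArg Subtype.val (this.1 (Subtype.ext e))
  · intro e
    exact congrArg Subtype.val (this.2 (Subtype.ext e))

include p h in
/-- A geometrically connected scheme representing degree zero is separated. -/
theorem isSeparated_of_geometricallyConnected [GeometricallyConnected D.toBase] :
    IsSeparated D.toBase := by
  have : Subsingleton ↥(Spec (CommRingCat.of k)) := inferInstanceAs (Subsingleton (PrimeSpectrum k))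
  have : Nonempty ↥(Spec (CommRingCat.of k)) := inferInstanceAs (Nonempty (PrimeSpectrum k))
  have : ConnectedSpace D.P := GeometricallyConnected.connectedSpace_of_subsingleton (f := D.toBase)
  exact p.isSeparated_of_represents h

end Parameter

end Fermat.Agent.Pic
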